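import Fermat.Agent.Igusa.Gauss
import Fermat.Agent.ModPoly.DeltaExp

set_option autoImplicit false

/-!
# The expansion of the quotient of the weight 12 Eisenstein series of nebentypus `ω` by `Δ`:
algebraic part.
-/

noncomputable section

open ModularCurve HahnSeries Fermat.Agent.Igusa

namespace Fermat.Agent.LGU

section def_

variable {R : Type*} [CommRing R] {q : ℕ}

/-- the weight 12 Eisenstein series with nebentypus `ω`, constant term zero -/
def eisPS (ω : DirichletCharacter R q) : PowerSeries R :=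
  PowerSeries.mk fun n => ∑ x ∈ n.divisorsAntidiagonal, ω (x.1 : ZMod q) * (x.2 : R) ^ 11

/-- the expansion of the quotient by `Δ` -/
def uL (ω : DirichletCharacter R q) : LaurentSeries R :=
  HahnSeries.single (-1 : ℤ) 1 * HahnSeries.ofPowerSeries ℤ R
    (eisPS ω * dedekindEtaUnitInv.map (Int.castRingHom R))

/-- expansion of `Δ` -/
def deltaL (R : Type*) [CommRing R] : LaurentSeries R :=
  HahnSeries.ofPowerSeries ℤ R (ModPoly.deltaPS.map (Int.castRingHom R))

@[simp]
theorem coeff_eisPS_zero (ω : DirichletCharacter R q) : (eisPS ω).coeff 0 = 0 := by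
  simp [eisPS]

@[simp]
theorem coeff_eisPS_one (ω : DirichletCharacter R q) : (eisPS ω).coeff 1 = 1 := by
  simp [eisPS]

theorem map_eisPS {S : Type*} [CommRing S] (f : R →+* S) (ω : DirichletCharacter R q) :
    (eisPS ω).map f = eisPS (ω.ringHomComp f) := by
  ext n
  simp only [eisPS, PowerSeries.coeff_map, PowerSeries.coeff_mk, map_sum, map_mul, map_pow,
    map_natCast, MulChar.ringHomComp_apply]

theorem coeffMap_uL {S : Type*} [CommRing S] (f : R →+* S) (ω : DirichletCharacter R q) :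
    coeffMap f (uL ω) = uL (ω.ringHomComp f) := by
  have e : (dedekindEtaUnitInv.map (Int.castRingHom R)).map f =
      dedekindEtaUnitInv.map (Int.castRingHom S) := by
    ext n
    simp only [PowerSeries.coeff_map, eq_intCast, map_intCast]
  rw [uL, map_mul, coeffMap_single, map_one, coeffMap_ofPowerSeries, map_mul, map_eisPS, e, uL]

theorem uL_mul_deltaL (ω : DirichletCharacter R q) :
    uL ω * deltaL R = HahnSeries.ofPowerSeries ℤ R (eisPS ω) := by
  have e : deltaL R = HahnSeries.single (1 : ℤ) 1 *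
      HahnSeries.ofPowerSeries ℤ R (dedekindEtaUnit.map (Int.castRingHom R)) := by
    rw [deltaL, ModPoly.deltaPS, map_mul, map_mul, PowerSeries.map_X,
      HahnSeries.ofPowerSeries_X]
  have e2 : dedekindEtaUnitInv.map (Int.castRingHom R) *
      dedekindEtaUnit.map (Int.castRingHom R) = 1 := by
    rw [← map_mul, mul_comm, dedekindEtaUnit_mul_inv, map_one]
  have e3 : (HahnSeries.single (-1 : ℤ) (1 : R)) * HahnSeries.single (1 : ℤ) 1 = 1 := by
    rw [HahnSeries.single_mul_single]; simp
  rw [uL, e, map_mul]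
  calc _ = ((HahnSeries.single (-1 : ℤ) (1 : R)) * HahnSeries.single (1 : ℤ) 1) *
      (HahnSeries.ofPowerSeries ℤ R (eisPS ω) *
        (HahnSeries.ofPowerSeries ℤ R (dedekindEtaUnitInv.map (Int.castRingHom R)) *
        HahnSeries.ofPowerSeries ℤ R (dedekindEtaUnit.map (Int.castRingHom R)))) := by ring
    _ = _ := by rw [e3, ← map_mul, e2, map_one, one_mul, mul_one]

/-- the power series `e / Δ` -/
def uS (ω : DirichletCharacter R q) : PowerSeries R :=
  (PowerSeries.mk fun n => (eisPS ω).coeff (n + 1)) * dedekindEtaUnitInv.map (Int.castRingHom R)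

theorem eisPS_eq (ω : DirichletCharacter R q) :
    eisPS ω = PowerSeries.X * PowerSeries.mk fun n => (eisPS ω).coeff (n + 1) := by
  ext n
  rcases n with _ | n
  · simp
  · rw [PowerSeries.coeff_succ_X_mul, PowerSeries.coeff_mk]

theorem uL_eq (ω : DirichletCharacter R q) : uL ω = HahnSeries.ofPowerSeries ℤ R (uS ω) := by
  have e3 : (HahnSeries.single (-1 : ℤ) (1 : R)) * HahnSeries.single (1 : ℤ) 1 = 1 := by
    rw [HahnSeries.single_mul_single]; simp
  rw [uL, eisPS_eq, mul_assoc, map_mul, HahnSeries.ofPowerSeries_X, ← mul_assoc, e3, one_mul, uS]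

theorem coeff_uS_zero (ω : DirichletCharacter R q) : (uS ω).coeff 0 = 1 := by
  rw [PowerSeries.coeff_zero_eq_constantCoeff, uS, map_mul,
    ← PowerSeries.coeff_zero_eq_constantCoeff, PowerSeries.coeff_mk, zero_add, coeff_eisPS_one,
    PowerSeries.coeff_map,
    PowerSeries.coeff_zero_eq_constantCoeff, constantCoeff_dedekindEtaUnitInv, map_one, one_mul]

theorem coeff_uL_zero (ω : DirichletCharacter R q) : (uL ω).coeff 0 = 1 := by
  have := coeff_uS_zero ω
  rw [uL_eq]
  have h := HahnSeries.ofPowerSeries_apply_coeff (Γ := ℤ) (uS ω) 0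
  rw [Nat.cast_zero] at h
  rw [h, this]

theorem coeff_uL_neg (ω : DirichletCharacter R q) {n : ℤ} (hn : n < 0) : (uL ω).coeff n = 0 := by
  rw [uL_eq, HahnSeries.ofPowerSeries_apply, HahnSeries.embDomain_of_notMem_range]
  rintro ⟨a, ha⟩
  have h6 : ((a : ℕ) : ℤ) = n := ha
  omega

theorem uL_ne_zero [Nontrivial R] (ω : DirichletCharacter R q) : uL ω ≠ 0 := by
  intro h
  have := coeff_uL_zero ω
  rw [h] at this
  simp at this

end def_

section field

variable {L : Type*} [Field L] {q : ℕ} [NeZero q]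

theorem isOfFinOrder_or (ω : DirichletCharacter L q) (a : ZMod q) :
    ω a = 0 ∨ ∃ n : ℕ, 0 < n ∧ (ω a) ^ n = 1 := by
  by_cases ha : IsUnit a
  · right
    obtain ⟨u, rfl⟩ := ha
    refine ⟨Fintype.card (ZMod q)ˣ, Fintype.card_pos, ?_⟩
    rw [← map_pow, ← Units.val_pow_eq_pow_val, pow_card_eq_one, Units.val_one, map_one]
  · left
    exact MulChar.map_nonunit ω ha

theorem char_mem (A : ValuationSubring L) (ω : DirichletCharacter L q) (a : ZMod q) :
    ω a ∈ A := by
  rcases isOfFinOrder_or ω a with h | ⟨n, hn, h⟩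
  · rw [h]; exact A.zero_mem
  · rw [← A.valuation_le_one_iff]
    by_contra hcon
    push Not at hcon
    have h1 : A.valuation ((ω a) ^ n) = 1 := by rw [h, map_one]
    rw [map_pow] at h1
    exact (one_lt_pow₀ hcon hn.ne').ne' h1

theorem coeff_eisPS_mem (A : ValuationSubring L) (ω : DirichletCharacter L q) (n : ℕ) :
    (eisPS ω).coeff n ∈ A := by
  rw [eisPS, PowerSeries.coeff_mk]
  exact A.toSubring.sum_mem fun x _ => A.mul_mem _ _ (char_mem A ω _)
    (A.toSubring.pow_mem (natCast_mem A.toSubring _) _)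

theorem coeff_uS_mem (A : ValuationSubring L) (ω : DirichletCharacter L q) (n : ℕ) :
    (uS ω).coeff n ∈ A := by
  rw [uS, PowerSeries.coeff_mul]
  refine A.toSubring.sum_mem fun x _ => A.mul_mem _ _ ?_ ?_
  · rw [PowerSeries.coeff_mk]; exact coeff_eisPS_mem A ω _
  · rw [PowerSeries.coeff_map]; exact intCast_mem A.toSubring _

theorem coeff_uL_mem (A : ValuationSubring L) (ω : DirichletCharacter L q) (n : ℤ) :
    (uL ω).coeff n ∈ A := by
  rcases lt_or_ge n 0 with hn | hn
  · rw [coeff_uL_neg ω hn]; exact A.zero_mem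
  · lift n to ℕ using hn
    rw [uL_eq, HahnSeries.ofPowerSeries_apply_coeff]
    exact coeff_uS_mem A ω n

/-- the integral lift of `uL` -/
def uA (A : ValuationSubring L) (ω : DirichletCharacter L q) : LaurentSeries A :=
  HahnSeries.ofPowerSeries ℤ A (PowerSeries.mk fun n => ⟨(uS ω).coeff n, coeff_uS_mem A ω n⟩)

theorem coeffMap_uA (A : ValuationSubring L) (ω : DirichletCharacter L q) :
    coeffMap A.subtype (uA A ω) = uL ω := by
  rw [uA, coeffMap_ofPowerSeries, uL_eq]
  congr 1
  ext n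
  rw [PowerSeries.coeff_map, PowerSeries.coeff_mk]
  rfl

variable (A : ValuationSubring L) {κ : Type*} [Field κ] (π : A →+* κ)

theorem uL_mem_gaussRing (ω : DirichletCharacter L q) : uL ω ∈ gaussRing A π := by
  rw [← coeffMap_uA A ω]
  exact emb_mem_gaussRing _

theorem gaussRes_uL (ω : DirichletCharacter L q) :
    gaussRes A π ⟨uL ω, uL_mem_gaussRing A π ω⟩ = coeffMap π (uA A ω) := by
  rw [← gaussRes_emb]
  exact gaussRes_congr (coeffMap_uA A ω).symm

theorem gaussRes_uL_coeff_zero (ω : DirichletCharacter L q) :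
    (gaussRes A π ⟨uL ω, uL_mem_gaussRing A π ω⟩).coeff 0 = 1 := by
  rw [gaussRes_uL, coeffMap_coeff]
  have h1 : (uA A ω).coeff 0 = 1 := by
    apply Subtype.ext
    have := congrArg (fun z => z.coeff 0) (coeffMap_uA A ω)
    simp only [coeffMap_coeff, coeff_uL_zero] at this
    exact this
  rw [h1, map_one]

theorem gaussRes_uL_ne_zero (ω : DirichletCharacter L q) :
    gaussRes A π ⟨uL ω, uL_mem_gaussRing A π ω⟩ ≠ 0 := by
  intro h
  have := gaussRes_uL_coeff_zero A π ω
  rw [h] at this
  simp at this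

/-- the reduction of `uL ω` is the series of the reduced character -/
theorem gaussRes_uL_eq (ω : DirichletCharacter L q) (ω' : DirichletCharacter κ q)
    (h : ∀ a : ZMod q, π ⟨ω a, char_mem A ω a⟩ = ω' a) :
    gaussRes A π ⟨uL ω, uL_mem_gaussRing A π ω⟩ = uL ω' := by
  rw [gaussRes_uL, uL_eq, uA, coeffMap_ofPowerSeries]
  congr 1
  ext n
  rw [PowerSeries.coeff_map, PowerSeries.coeff_mk]
  have e1 : ∀ m : ℕ, π ⟨(eisPS ω).coeff m, coeff_eisPS_mem A ω m⟩ = (eisPS ω').coeff m := by
    intro m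
    have : (⟨(eisPS ω).coeff m, coeff_eisPS_mem A ω m⟩ : A) =
        ∑ x ∈ m.divisorsAntidiagonal, (⟨ω (x.1 : ZMod q), char_mem A ω _⟩ : A) * (x.2 : A) ^ 11 := by
      apply Subtype.ext
      push_cast
      rw [eisPS, PowerSeries.coeff_mk]
    rw [this, map_sum, eisPS, PowerSeries.coeff_mk]
    refine Finset.sum_congr rfl fun x _ => ?_
    rw [RingHom.map_mul, RingHom.map_pow, h, map_natCast π]
  have e2 : (⟨(uS ω).coeff n, coeff_uS_mem A ω n⟩ : A) =
      ∑ x ∈ Finset.HasAntidiagonal.antidiagonal n, (⟨(eisPS ω).coeff (x.1 + 1), coeff_eisPS_mem A ω _⟩ : A) *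
        ((dedekindEtaUnitInv.coeff x.2 : ℤ) : A) := by
    apply Subtype.ext
    push_cast
    rw [uS, PowerSeries.coeff_mul]
    refine Finset.sum_congr rfl fun x _ => ?_
    rw [PowerSeries.coeff_mk, PowerSeries.coeff_map, eq_intCast]
  rw [e2, map_sum, uS, PowerSeries.coeff_mul]
  refine Finset.sum_congr rfl fun x _ => ?_
  rw [map_mul, map_intCast, e1, PowerSeries.coeff_mk, PowerSeries.coeff_map, eq_intCast]

theorem uL_mem_tame (ω : DirichletCharacter L q) : uL ω ∈ tame L := by
  have h1 : HahnSeries.ofPowerSeries ℤ L (eisPS ω) ∈ tame L := by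
    refine ⟨Submodule.span ℤ (Set.range ω), Submodule.fg_span (Set.finite_range _), fun n => ?_⟩
    rcases lt_or_ge n 0 with hn | hn
    · have : (HahnSeries.ofPowerSeries ℤ L (eisPS ω)).coeff n = 0 := by
        rw [HahnSeries.ofPowerSeries_apply, HahnSeries.embDomain_of_notMem_range]
        rintro ⟨a, ha⟩
        have h6 : ((a : ℕ) : ℤ) = n := ha
        omega
      rw [this]; exact Submodule.zero_mem _
    · lift n to ℕ using hn
      rw [HahnSeries.ofPowerSeries_apply_coeff, eisPS, PowerSeries.coeff_mk]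
      refine Submodule.sum_mem _ fun x _ => ?_
      have : ω (x.1 : ZMod q) * (x.2 : L) ^ 11 = ((x.2 : ℤ) ^ 11) • ω (x.1 : ZMod q) := by
        rw [zsmul_eq_mul]; push_cast; ring
      rw [this]
      exact Submodule.smul_mem _ _ (Submodule.subset_span ⟨_, rfl⟩)
  have h2 : HahnSeries.single (-1 : ℤ) 1 * HahnSeries.ofPowerSeries ℤ L
      (dedekindEtaUnitInv.map (Int.castRingHom L)) ∈ tame L := by
    refine intCast_coeff_mem_tame (HahnSeries.single (-1 : ℤ) 1 * HahnSeries.ofPowerSeries ℤ ℤ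
      dedekindEtaUnitInv) ?_
    rw [map_mul, coeffMap_single, coeffMap_ofPowerSeries, RingHom.map_one]
  have e : uL ω = HahnSeries.ofPowerSeries ℤ L (eisPS ω) *
      (HahnSeries.single (-1 : ℤ) 1 * HahnSeries.ofPowerSeries ℤ L
      (dedekindEtaUnitInv.map (Int.castRingHom L))) := by
    rw [uL, map_mul]; ring
  rw [e]
  exact (tame L).mul_mem h1 h2

end field

end Fermat.Agent.LGU
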