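import Fermat.Agent.WOne.EisExp
import Fermat.Agent.LGU.Alg
import Fermat.Agent.X0Places.JExp
import Fermat.Agent.MzCusp.DeltaQuot

set_option autoImplicit false

/-!
# The expansion of the quotient of the weight 12 Eisenstein series of nebentypus `ω` by `Δ`:
analytic part.
-/

noncomputable section

open UpperHalfPlane EisensteinSeries ModularForm ModularCurve
open scoped MatrixGroups Manifold Topology
open Fermat.Agent.X0Places
open Fermat.Agent.WOne
open Function.Periodic (qParam)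

namespace Fermat.Agent.LGU

/-- iterated summation -/
theorem eisW_eq_tsum {k : ℕ} (hk : 3 ≤ k) (f : ℤ → ℂ) (hf : ∀ m, ‖f m‖ ≤ 1) (z : ℍ) :
    Summable (fun m : ℤ => f m * inner' 1 k 0 m z) ∧
    eisW k (fun x => f (x 0)) z = ∑' m : ℤ, f m * inner' 1 k 0 m z := by
  have hk' : (3 : ℤ) ≤ (k : ℤ) := by exact_mod_cast hk
  have h1 : Summable fun x : Fin 2 → ℤ => f (x 0) * eisSummand k x z :=
    (summable_eisW hk' (c := fun x => f (x 0)) (fun x => hf _) z).of_norm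
  have h2 := (finTwoArrowEquiv ℤ).symm.summable_iff.mpr h1
  have h3 := (finTwoArrowEquiv ℤ).symm.tsum_eq
    (fun x : Fin 2 → ℤ => f (x 0) * eisSummand k x z)
  have h4 : ∀ m n : ℤ, ((fun x : Fin 2 → ℤ => f (x 0) * eisSummand k x z) ∘
      (finTwoArrowEquiv ℤ).symm) (m, n) = f m * ((((m : ℂ) * z + n) ^ k)⁻¹) := by
    intro m n
    simp only [Function.comp, finTwoArrowEquiv_symm_apply, eisSummand]
    simp
  have h6 : ∀ m : ℤ, ∑' n : ℤ, ((fun x : Fin 2 → ℤ => f (x 0) * eisSummand k x z) ∘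
      (finTwoArrowEquiv ℤ).symm) (m, n) = f m * inner' 1 k 0 m z := by
    intro m
    simp only [h4]
    rw [tsum_mul_left, inner']
    congr 1
    refine tsum_congr fun n => ?_
    rw [if_pos (Subsingleton.elim _ _)]
  constructor
  · have := h2.prod
    simpa only [h6] using this
  · change ∑' x : Fin 2 → ℤ, f (x 0) * eisSummand k x z = _
    rw [← h3]
    exact (h2.tsum_prod).trans (tsum_congr h6)

variable {q : ℕ} [NeZero q]

omit [NeZero q] in
theorem norm_char_le (χ : DirichletCharacter ℂ q) (a : ZMod q) : ‖χ a‖ ≤ 1 :=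
  DirichletCharacter.norm_le_one χ a

omit [NeZero q] in
theorem summable_chi (χ : DirichletCharacter ℂ q) (z : ℍ) :
    Summable fun x : ℕ+ × ℕ+ =>
      (χ ((x.1 : ℕ) : ZMod q) * ((x.2 : ℕ) : ℂ) ^ 11) * qParam 1 z ^ ((x.1 : ℕ) * (x.2 : ℕ)) := by
  have hq : ‖qParam 1 z‖ < 1 := by
    have := norm_qParam_lt 1 z
    rwa [Nat.cast_one] at this
  have h := (summable_prod_mul_pow 11 hq).norm
  refine Summable.of_norm_bounded h fun x => ?_
  rw [norm_mul, norm_mul, norm_mul]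
  refine mul_le_mul_of_nonneg_right ?_ (norm_nonneg _)
  exact mul_le_of_le_one_left (norm_nonneg _) (norm_char_le χ _)

theorem hasSum_eisPS (χ : DirichletCharacter ℂ q) (z : ℍ) :
    HasSum (fun r : ℕ => (eisPS χ).coeff r * qParam 1 z ^ r)
      (∑' x : ℕ+ × ℕ+,
        (χ ((x.1 : ℕ) : ZMod q) * ((x.2 : ℕ) : ℂ) ^ 11) *
          qParam 1 z ^ ((x.1 : ℕ) * (x.2 : ℕ))) := by
  have h1 := (summable_chi χ z).hasSum
  rw [← sigmaAntidiagonalEquivProd.hasSum_iff] at h1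
  have h2 : ∀ r : ℕ+, HasSum (fun x : Nat.divisorsAntidiagonal r =>
      ((fun x : ℕ+ × ℕ+ => (χ ((x.1 : ℕ) : ZMod q) * ((x.2 : ℕ) : ℂ) ^ 11) *
        qParam 1 z ^ ((x.1 : ℕ) * (x.2 : ℕ))) ∘ sigmaAntidiagonalEquivProd) ⟨r, x⟩)
      ((eisPS χ).coeff r * qParam 1 z ^ (r : ℕ)) := by
    intro r
    have h3 : (eisPS χ).coeff r * qParam 1 z ^ (r : ℕ) =
        ∑ x : Nat.divisorsAntidiagonal r, ((fun x : ℕ+ × ℕ+ =>
          (χ ((x.1 : ℕ) : ZMod q) * ((x.2 : ℕ) : ℂ) ^ 11) *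
        qParam 1 z ^ ((x.1 : ℕ) * (x.2 : ℕ))) ∘ sigmaAntidiagonalEquivProd) ⟨r, x⟩ := by
      rw [eisPS, PowerSeries.coeff_mk, Finset.sum_mul, ← Finset.sum_attach]
      refine Finset.sum_congr rfl fun x _ => ?_
      simp only [Function.comp, sigmaAntidiagonalEquivProd, divisorsAntidiagonalFactors,
        Equiv.coe_fn_mk, PNat.mk_coe]
      congr 2
      exact (Nat.mem_divisorsAntidiagonal.mp x.2).1.symm
    rw [h3]
    exact hasSum_fintype _
  have h4 := h1.sigma h2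
  have h5 := (hasSum_pnat_iff (f := fun r : ℕ => (eisPS χ).coeff r * qParam 1 z ^ r)).mp h4
  have h6 : (PowerSeries.coeff 0) (eisPS χ) * qParam 1 z ^ 0 = 0 := by simp
  rw [h6, add_zero] at h5
  exact h5

/-- coefficients of the Eisenstein series as a function of vectors -/
def cE (χ : DirichletCharacter ℂ q) (x : Fin 2 → ℤ) : ℂ := χ ((x 0 : ℤ) : ZMod q)

/-- the Eisenstein series -/
def FE (χ : DirichletCharacter ℂ q) (z : ℍ) : ℂ := (2 * lipC 12)⁻¹ * eisW 12 (cE χ) z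

theorem hasQExp_FE (hq : 1 < q) (χ : DirichletCharacter ℂ q) (hχ : χ (-1) = 1) :
    HasQExp 1 (FE χ) (eisPS χ) := by
  intro z
  have h3 := hasSum_eisPS χ z
  obtain ⟨h1, h2⟩ := eisW_eq_tsum (k := 12) (by norm_num)
    (fun m : ℤ => χ ((m : ℤ) : ZMod q)) (fun m => norm_char_le χ _) z
  suffices hsuff : FE χ z = ∑' x : ℕ+ × ℕ+,
        (χ ((x.1 : ℕ) : ZMod q) * ((x.2 : ℕ) : ℂ) ^ 11) *
          qParam 1 z ^ ((x.1 : ℕ) * (x.2 : ℕ)) by
    rw [← hsuff] at h3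
    exact h3
  have hC := lipC_ne_zero 12
  have hnt : Nontrivial (ZMod q) := by
    have : Fact (1 < q) := ⟨hq⟩
    infer_instance
  have h0 : χ (((0 : ℤ) : ℤ) : ZMod q) = 0 := by
    rw [Int.cast_zero]
    exact MulChar.map_nonunit χ (by simp)
  have hz1 : zetaM 1 = 1 := by
    rw [zetaM, Nat.cast_one, div_one, Complex.exp_two_pi_mul_I]
  have h2' : eisW 12 (cE χ) z = ∑' m : ℤ, χ ((m : ℤ) : ZMod q) * inner' 1 12 0 m z := h2
  have hs1 : Summable fun m : ℕ+ => χ ((((m : ℕ) : ℤ) : ℤ) : ZMod q) *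
      inner' 1 12 0 ((m : ℕ) : ℤ) z :=
    h1.comp_injective (i := fun m : ℕ+ => ((m : ℕ) : ℤ))
      (fun x y hh => PNat.coe_injective (by
        have h' : ((x : ℕ) : ℤ) = ((y : ℕ) : ℤ) := hh
        exact_mod_cast h'))
  have hs2 : Summable fun m : ℕ+ => χ ((-((m : ℕ) : ℤ) : ℤ) : ZMod q) *
      inner' 1 12 0 (-((m : ℕ) : ℤ)) z :=
    h1.comp_injective (i := fun m : ℕ+ => (-((m : ℕ) : ℤ)))
      (fun x y hh => PNat.coe_injective (by
        have h' : ((x : ℕ) : ℤ) = ((y : ℕ) : ℤ) := neg_injective hh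
        exact_mod_cast h'))
  rw [FE, h2', tsum_int_eq_zero_add_tsum_pnat h1, h0, zero_mul, zero_add,
    (summable_chi χ z).tsum_prod, ← hs1.tsum_add hs2, ← tsum_mul_left]
  refine tsum_congr fun m => ?_
  have hneg : χ ((-((m : ℕ) : ℤ) : ℤ) : ZMod q) = χ ((((m : ℕ) : ℤ) : ℤ) : ZMod q) := by
    push_cast
    rw [neg_eq_neg_one_mul, map_mul, hχ, one_mul]
  rw [hneg, inner'_neg, neg_zero, inner'_pos 1 (by norm_num) 0 m m.pos]
  simp only [hz1, one_pow, one_mul, Nat.cast_one]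
  have e : ∀ S : ℂ, (2 * lipC 12)⁻¹ * (χ ((((m : ℕ) : ℤ) : ℤ) : ZMod q) * ((1 : ℂ)⁻¹ * lipC 12 * S) +
      χ ((((m : ℕ) : ℤ) : ℤ) : ZMod q) * ((-1) ^ 12 * ((1 : ℂ)⁻¹ * lipC 12 * S))) =
      χ ((((m : ℕ) : ℤ) : ℤ) : ZMod q) * S := by
    intro S
    field_simp
    ring
  rw [e, ← tsum_mul_left]
  refine tsum_congr fun j => ?_
  push_cast
  ring

omit [NeZero q] in
theorem norm_cE_le (χ : DirichletCharacter ℂ q) (x : Fin 2 → ℤ) : ‖cE χ x‖ ≤ 1 :=
  norm_char_le χ _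

theorem mdiff_FE (χ : DirichletCharacter ℂ q) : MDiff (FE χ) :=
  mdifferentiable_const.mul (mdiff_eisW (by norm_num) (norm_cE_le χ))

/-- the coefficients of the translate -/
def cT (χ : DirichletCharacter ℂ q) (g : SL(2, ℤ)) (x : Fin 2 → ℤ) : ℂ :=
  cE χ (Matrix.vecMul x ((g⁻¹ : SL(2, ℤ)) : Matrix (Fin 2) (Fin 2) ℤ))

theorem vec_zero (g : SL(2, ℤ)) (x : Fin 2 → ℤ) :
    (Matrix.vecMul x ((g⁻¹ : SL(2, ℤ)) : Matrix (Fin 2) (Fin 2) ℤ)) 0 =
      x 0 * g 1 1 - x 1 * g 1 0 := by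
  rw [Matrix.SpecialLinearGroup.coe_inv, Matrix.adjugate_fin_two]
  simp [Matrix.vecMul, dotProduct, Fin.sum_univ_two]
  ring

omit [NeZero q] in
theorem FE_slash (χ : DirichletCharacter ℂ q) (g : SL(2, ℤ)) (z : ℍ) :
    FE χ (g • z) = ((g 1 0 : ℂ) * z + g 1 1) ^ 12 * ((2 * lipC 12)⁻¹ * eisW 12 (cT χ g) z) := by
  have h := congrFun (eisW_slash 12 (cE χ) g) z
  rw [SL_slash_apply] at h
  have hd : UpperHalfPlane.denom g z ≠ 0 := denom_ne_zero _ z
  have hd' : UpperHalfPlane.denom g z = (g 1 0 : ℂ) * z + g 1 1 := by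
    exact Fermat.Agent.JInv.denom_eq g z
  have h2 : eisW 12 (cE χ) (g • z) = UpperHalfPlane.denom g z ^ 12 * eisW 12 (cT χ g) z := by
    have h3 : eisW 12 (cT χ g) z = eisW 12 (cE χ) (g • z) * UpperHalfPlane.denom g z ^ (-12 : ℤ) :=
      h.symm
    rw [h3]
    have : UpperHalfPlane.denom g z ^ (-12 : ℤ) = (UpperHalfPlane.denom g z ^ 12)⁻¹ := by
      rw [_root_.zpow_neg]; norm_cast
    rw [this]
    field_simp
  rw [FE, h2, hd']
  ring

/-- the modular function `U = F_χ / Δ` -/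
def UE (χ : DirichletCharacter ℂ q) (z : ℍ) : ℂ := FE χ z / ModularForm.discriminant z

theorem UE_smul (χ : DirichletCharacter ℂ q) (g : SL(2, ℤ)) (z : ℍ) :
    UE χ (g • z) = (2 * lipC 12)⁻¹ * eisW 12 (cT χ g) z / ModularForm.discriminant z := by
  have hden : ((g 1 0 : ℂ) * z + g 1 1) ^ 12 ≠ 0 := pow_ne_zero _ (denom_SL_ne_zero g z)
  rw [UE, FE_slash, Fermat.Agent.MzCusp.disc_smul, mul_div_mul_left _ _ hden]

theorem UE_gamma0 (χ : DirichletCharacter ℂ q) {g : SL(2, ℤ)}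
    (hg : g ∈ CongruenceSubgroup.Gamma0 q) (z : ℍ) :
    UE χ (g • z) = χ ((g 1 1 : ℤ) : ZMod q) * UE χ z := by
  have hc : ((g 1 0 : ℤ) : ZMod q) = 0 := CongruenceSubgroup.Gamma0_mem.mp hg
  have h1 : ∀ x, cT χ g x = χ ((g 1 1 : ℤ) : ZMod q) * cE χ x := by
    intro x
    rw [cT, cE, vec_zero, cE]
    push_cast
    rw [hc, mul_zero, sub_zero, map_mul, mul_comm]
  have h2 : eisW 12 (cT χ g) z = χ ((g 1 1 : ℤ) : ZMod q) * eisW 12 (cE χ) z := by
    rw [eisW, eisW, ← tsum_mul_left]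
    refine tsum_congr fun x => ?_
    rw [h1, mul_assoc]
  rw [UE_smul, h2, UE, FE]
  ring

theorem mdiff_UE (χ : DirichletCharacter ℂ q) : MDiff (UE χ) := by
  have h1 := mdiff_FE χ
  have h2 : MDiff ModularForm.discriminant := CuspForm.discriminant.holo'
  rw [UpperHalfPlane.mdifferentiable_iff] at h1 h2 ⊢
  have h3 : (UE χ) ∘ ofComplex = (FE χ ∘ ofComplex) / (ModularForm.discriminant ∘ ofComplex) := rfl
  rw [h3]
  exact h1.div h2 fun z _ => ModularForm.discriminant_ne_zero _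

theorem hasLaurent_UE (hq : 1 < q) (χ : DirichletCharacter ℂ q) (hχ : χ (-1) = 1) :
    HasLaurent 1 (UE χ) (uL χ) := by
  have h := (HasLaurent.of_qExp (hasQExp_FE hq χ hχ)).mul Fermat.Agent.MzCusp.hasLaurent_discInv
  have e1 : UE χ = FE χ * fun τ => (ModularForm.discriminant τ)⁻¹ := by
    funext z
    rw [UE, Pi.mul_apply, div_eq_mul_inv]
  have e2 : uL χ = HahnSeries.ofPowerSeries ℤ ℂ (eisPS χ) *
      (HahnSeries.single (-1 : ℤ) 1 * HahnSeries.ofPowerSeries ℤ ℂ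
        (dedekindEtaUnitInv.map (Int.castRingHom ℂ))) := by
    rw [uL, map_mul]; ring
  rw [e1, e2]
  exact h

/-- linear combinations of the level `q` series have an expansion -/
theorem exists_qExp_sum (a : (Fin 2 → ZMod q) → ℂ) (s : Finset (Fin 2 → ZMod q)) :
    ∃ P, HasQExp q (fun z => ∑ v ∈ s, a v * G q 12 v z) P := by
  classical
  induction s using Finset.induction_on with
  | empty => exact ⟨_, by simpa using HasQExp.const (h := (q : ℝ)) 0⟩
  | insert v s hv ih =>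
    obtain ⟨P, hP⟩ := ih
    have h1 := G_expansion q (k := 12) (by norm_num) (v 0) (v 1)
    have hvv : ![v 0, v 1] = v := by
      funext i; fin_cases i <;> rfl
    rw [hvv] at h1
    have hC : (q : ℂ) ^ 12 * (lipC 12)⁻¹ ≠ 0 :=
      mul_ne_zero (pow_ne_zero _ (by exact_mod_cast NeZero.ne q)) (inv_ne_zero (lipC_ne_zero 12))
    have h2 := (HasQExp.const (h := (q : ℝ)) (a v * ((q : ℂ) ^ 12 * (lipC 12)⁻¹)⁻¹)).mul h1
    have h3 := h2.add hP
    have e : (fun z => ∑ v ∈ insert v s, a v * G q 12 v z) =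
        ((fun _ => (a v * ((q : ℂ) ^ 12 * (lipC 12)⁻¹)⁻¹)) *
          fun z => (q : ℂ) ^ 12 * (lipC 12)⁻¹ * G q 12 v z) +
            fun z => ∑ v ∈ s, a v * G q 12 v z := by
      funext z
      rw [Finset.sum_insert hv, Pi.add_apply, Pi.mul_apply]
      congr 1
      rw [mul_assoc, ← mul_assoc _ _ (G q 12 v z), inv_mul_cancel₀ hC, one_mul]
    rw [e]
    exact ⟨_, h3⟩

theorem eisW_cT (χ : DirichletCharacter ℂ q) (g : SL(2, ℤ)) (z : ℍ) :
    eisW 12 (cT χ g) z = ∑ v : Fin 2 → ZMod q,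
      χ (v 0 * ((g 1 1 : ℤ) : ZMod q) - v 1 * ((g 1 0 : ℤ) : ZMod q)) * G q 12 v z := by
  have hs : ∀ v : Fin 2 → ZMod q, Summable fun x : Fin 2 → ℤ =>
      χ (v 0 * ((g 1 1 : ℤ) : ZMod q) - v 1 * ((g 1 0 : ℤ) : ZMod q)) *
        (rcls q v x * eisSummand 12 x z) := fun v =>
    ((summable_eisW (by norm_num) (norm_rcls q v) z).of_norm).mul_left _
  have h1 : ∀ v : Fin 2 → ZMod q, χ (v 0 * ((g 1 1 : ℤ) : ZMod q) - v 1 * ((g 1 0 : ℤ) : ZMod q)) *
      G q 12 v z = ∑' x : Fin 2 → ℤ,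
      χ (v 0 * ((g 1 1 : ℤ) : ZMod q) - v 1 * ((g 1 0 : ℤ) : ZMod q)) *
        (rcls q v x * eisSummand 12 x z) := by
    intro v
    rw [tsum_mul_left]; rfl
  simp only [h1]
  rw [← Summable.tsum_finsetSum (fun v _ => hs v), eisW]
  refine tsum_congr fun x => ?_
  rw [Finset.sum_eq_single (fun i => ((x i : ℤ) : ZMod q))]
  · rw [rcls, if_pos rfl, one_mul, cT, cE, vec_zero]
    push_cast
    rfl
  · intro v _ hv
    rw [rcls, if_neg (fun h => hv h.symm), zero_mul, mul_zero]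
  · intro h
    exact absurd (Finset.mem_univ _) h

theorem exists_hasLaurent_UE (χ : DirichletCharacter ℂ q) (g : SL(2, ℤ)) :
    ∃ y, HasLaurent q (fun z => UE χ (g • z)) y := by
  obtain ⟨P, hP⟩ := exists_qExp_sum
    (fun v => χ (v 0 * ((g 1 1 : ℤ) : ZMod q) - v 1 * ((g 1 0 : ℤ) : ZMod q))) Finset.univ
  have h1 := (HasLaurent.const (h := (q : ℝ)) ((2 * lipC 12)⁻¹)).mul (HasLaurent.of_qExp hP)
  have h2 := Fermat.Agent.MzCusp.hasLaurent_discInv.subst (h' := (q : ℝ)) id 1 q (by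
    intro τ
    rw [Units.val_one, one_mul, id]
    have := qParam_mul_width (h := 1) one_ne_zero q (τ : ℂ)
    rw [mul_one] at this
    exact this.symm)
  have h3 := h1.mul h2
  have e : (fun z => UE χ (g • z)) = ((fun _ => (2 * lipC 12)⁻¹) *
      fun z => ∑ v, χ (v 0 * ((g 1 1 : ℤ) : ZMod q) - v 1 * ((g 1 0 : ℤ) : ZMod q)) *
        G q 12 v z) * (fun τ => (ModularForm.discriminant τ)⁻¹) ∘ id := by
    funext z
    rw [UE_smul, eisW_cT]
    simp only [Pi.mul_apply, Function.comp, id]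
    rw [div_eq_mul_inv]
  rw [e]
  exact ⟨_, h3⟩

theorem UE_ne_zero (hq : 1 < q) (χ : DirichletCharacter ℂ q) (hχ : χ (-1) = 1) :
    ∃ z, UE χ z ≠ 0 := by
  by_contra hcon
  push Not at hcon
  have h1 := hasLaurent_UE hq χ hχ
  have h2 : UE χ = fun _ => 0 := funext hcon
  rw [h2] at h1
  have h3 := h1.unique one_pos (HasLaurent.const 0)
  rw [map_zero] at h3
  exact uL_ne_zero χ h3

/-- **[LG-U]**: the modular function with expansion `uL ω`. -/
theorem exists_U {L : Type*} [Field L] (ι : L →+* ℂ) (hq : 1 < q) (ω : DirichletCharacter L q)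
    (hω : ω (-1) = 1) :
    ∃ U : ℍ → ℂ, MDiff U ∧ HasLaurent 1 U (coeffMap ι (uL ω)) ∧
      (∀ g ∈ CongruenceSubgroup.Gamma0 q, ∀ z : ℍ,
        U (g • z) = ι (ω ((g 1 1 : ℤ) : ZMod q)) * U z) ∧
      (∀ g : SL(2, ℤ), ∃ y, HasLaurent q (fun z => U (g • z)) y) ∧ ∃ z, U z ≠ 0 := by
  have hχ : (ω.ringHomComp ι) (-1) = 1 := by
    rw [MulChar.ringHomComp_apply, hω, map_one]
  refine ⟨UE (ω.ringHomComp ι), mdiff_UE _, ?_, ?_, ?_, UE_ne_zero hq _ hχ⟩
  · rw [coeffMap_uL]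
    exact hasLaurent_UE hq _ hχ
  · intro g hg z
    rw [UE_gamma0 _ hg, MulChar.ringHomComp_apply]
  · exact fun g => exists_hasLaurent_UE _ g

end Fermat.Agent.LGU
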